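import Fermat.Agent.Univalent.Basic

/-!
# The area inequality

If `h z = 1/z + φ z` is univalent on the punctured disc, with `φ 0 = 0`, then `‖φ' 0‖ ≤ 1`. The
image of `r ≤ ‖z‖ < ρ` lies in an ellipse of area `π / r² + o(1)` and has area at least
`π (1/r² - 1/ρ²) + π ‖φ' 0‖² (ρ² - r²)`.
-/

set_option autoImplicit false

noncomputable section

namespace FA.Univalent

open Complex Filter Topology Set Metric MeasureTheory
open scoped Real ComplexConjugate

/-- `w ↦ w - β conj w`. -/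
def shear (β : ℂ) : ℂ →L[ℝ] ℂ :=
  ContinuousLinearMap.id ℝ ℂ - β • (conjCLE : ℂ →L[ℝ] ℂ)

theorem shear_apply (β w : ℂ) : shear β w = w - β * conj w := by
  simp [shear]

theorem det_shear (β : ℂ) : (shear β : ℂ →ₗ[ℝ] ℂ).det = 1 - ‖β‖ ^ 2 := by
  rw [← LinearMap.det_toMatrix basisOneI, Matrix.det_fin_two, Complex.sq_norm, normSq_apply]
  simp [LinearMap.toMatrix_apply, shear_apply]
  ring

/-- The determinant of a complex derivative. -/
theorem det_derivative (c : ℂ) :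
    (c • (1 : ℂ →L[ℝ] ℂ)).det = ‖c‖ ^ 2 := by
  rw [ContinuousLinearMap.det, ← LinearMap.det_toMatrix basisOneI, Matrix.det_fin_two,
    Complex.sq_norm, normSq_apply]
  simp [LinearMap.toMatrix_apply]

/-- The annulus `r ≤ ‖z‖ < ρ`. -/
def annulus (r ρ : ℝ) : Set ℂ := {z | r ≤ ‖z‖ ∧ ‖z‖ < ρ}

theorem measurableSet_annulus (r ρ : ℝ) : MeasurableSet (annulus r ρ) :=
  (measurableSet_le measurable_const measurable_norm).inter
    (measurableSet_lt measurable_norm measurable_const)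

variable {φ : ℂ → ℂ}

/-- `-(1/z²) + φ' z`, the derivative of `1/z + φ z`. -/
def derivH (φ : ℂ → ℂ) (z : ℂ) : ℂ := -(z ^ 2)⁻¹ + deriv φ z

/-- The circle bound from Bessel's inequality. -/
theorem circle_bound (hφ : DifferentiableOn ℂ φ (ball 0 1)) {s : ℝ} (hs : 0 < s) (hs1 : s < 1) :
    2 * π * (1 / s ^ 4 + ‖deriv φ 0‖ ^ 2) ≤
      ∫ θ in -π..π, ‖derivH φ (circleMap 0 s θ)‖ ^ 2 := by
  obtain ⟨b, hb⟩ : ∃ b, b = deriv φ 0 := ⟨_, rfl⟩
  obtain ⟨G, hG⟩ : ∃ G : ℂ → ℂ, G = fun z =>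
      -2 * (-1 + z ^ 2 * deriv φ z) + 2 * (s : ℂ) ^ 4 * conj b * deriv φ z := ⟨_, rfl⟩
  have hsub : closedBall (0 : ℂ) s ⊆ ball 0 1 := closedBall_subset_ball hs1
  have hd' : DifferentiableOn ℂ (deriv φ) (ball 0 1) := hφ.deriv isOpen_ball
  have hGd : DifferentiableOn ℂ G (ball 0 1) := by
    rw [hG]
    exact (((differentiableOn_id.pow 2).mul hd').const_add _ |>.const_mul _).add (hd'.const_mul _)
  have havg : (2 * π)⁻¹ • ∫ θ in 0..2 * π, G (circleMap 0 s θ) = G 0 := by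
    rw [← Real.circleAverage_def]
    refine DiffContOnCl.circleAverage ((hGd.mono ?_).diffContOnCl)
    rw [abs_of_pos hs, closure_ball _ hs.ne']
    exact hsub
  have hmem : ∀ θ, circleMap 0 s θ ∈ ball (0 : ℂ) 1 := fun θ =>
    hsub (circleMap_mem_closedBall 0 hs.le θ)
  have hcont : Continuous fun θ => G (circleMap 0 s θ) :=
    hGd.continuousOn.comp_continuous (continuous_circleMap 0 s) hmem
  have hint : ∫ θ in -π..π, (G (circleMap 0 s θ)).re = 2 * π * (G 0).re := by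
    have hper : Function.Periodic (fun θ => G (circleMap 0 s θ)) (2 * π) :=
      (periodic_circleMap 0 s).comp G
    have h1 := hper.intervalIntegral_add_eq (-π) 0
    rw [show -π + 2 * π = π by ring, zero_add] at h1
    have h2 : ∫ θ in -π..π, G (circleMap 0 s θ) = (2 * π : ℝ) • G 0 := by
      rw [h1, ← havg, smul_smul, mul_inv_cancel₀ (by positivity), one_smul]
    have h3 := (Complex.reCLM).intervalIntegral_comp_comm (a := -π) (b := π)
      (hcont.intervalIntegrable (μ := volume) _ _)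
    simp only [Complex.reCLM_apply] at h3
    rw [h3, h2]
    simp
  have hpt : ∀ θ, ((G (circleMap 0 s θ)).re - 1 - ‖b‖ ^ 2 * s ^ 4) / s ^ 4 ≤
      ‖derivH φ (circleMap 0 s θ)‖ ^ 2 := fun θ => by
    obtain ⟨z, hz⟩ : ∃ z, z = circleMap 0 s θ := ⟨_, rfl⟩
    have hzn : ‖z‖ = s := by rw [hz, norm_circleMap_zero, abs_of_pos hs]
    have hz0 : z ≠ 0 := fun e => by rw [e, norm_zero] at hzn; linarith
    obtain ⟨p, hp⟩ : ∃ p : ℂ, p = deriv φ z := ⟨_, rfl⟩
    have hm : ‖derivH φ z‖ ^ 2 = normSq (-1 + z ^ 2 * p) / s ^ 4 := by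
      rw [derivH, ← hp, show -(z ^ 2)⁻¹ + p = (-1 + z ^ 2 * p) / z ^ 2 by field_simp, norm_div,
        norm_pow, hzn, div_pow, ← pow_mul, Complex.sq_norm]
    rw [← hz, hm, div_le_div_iff_of_pos_right (by positivity)]
    have hsq : s ^ 2 = z.re * z.re + z.im * z.im := by
      rw [← hzn, Complex.sq_norm, normSq_apply]
    have key := normSq_nonneg (-1 + z ^ 2 * p - (-1 + b * z ^ 2))
    rw [hG, Complex.sq_norm, show (s : ℝ) ^ 4 = (s ^ 2) ^ 2 by ring, hsq]
    simp only [← hp, show (s : ℂ) ^ 4 = (((s ^ 2) ^ 2 : ℝ) : ℂ) by push_cast; ring, hsq]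
    simp [normSq_apply, pow_two] at key ⊢
    nlinarith [key]
  have hHc : Continuous fun θ => ‖derivH φ (circleMap 0 s θ)‖ ^ 2 := by
    refine (Continuous.norm ?_).pow 2
    exact (((continuous_circleMap 0 s).pow 2).inv₀ fun θ => pow_ne_zero 2
      (circleMap_ne_center hs.ne')).neg.add
      (hd'.continuousOn.comp_continuous (continuous_circleMap 0 s) hmem)
  have hre : Continuous fun θ => (G (circleMap 0 s θ)).re := Complex.continuous_re.comp hcont
  refine le_trans (le_of_eq ?_) (intervalIntegral.integral_mono_on (by linarith [Real.pi_pos])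
    ((((hre.sub continuous_const).sub continuous_const).div_const _).intervalIntegrable _ _)
    (hHc.intervalIntegrable _ _) fun θ _ => hpt θ)
  simp only [Pi.sub_apply]
  rw [intervalIntegral.integral_div,
    intervalIntegral.integral_sub (f := fun θ => (G (circleMap 0 s θ)).re - 1)
      ((hre.sub continuous_const).intervalIntegrable _ _) intervalIntegrable_const,
    intervalIntegral.integral_sub (hre.intervalIntegrable _ _) intervalIntegrable_const, hint,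
    intervalIntegral.integral_const, intervalIntegral.integral_const, ← hb]
  have hG0 : (G 0).re = 2 + 2 * s ^ 4 * ‖b‖ ^ 2 := by
    rw [hG]
    simp only [← hb, zero_pow two_ne_zero, zero_mul, add_zero, mul_assoc]
    rw [Complex.conj_mul', show (2 : ℂ) * ((s : ℂ) ^ 4 * (‖b‖ : ℂ) ^ 2) =
      ((2 * (s ^ 4 * ‖b‖ ^ 2) : ℝ) : ℂ) by push_cast; ring, add_re, ofReal_re]
    norm_num
  rw [hG0, smul_eq_mul, smul_eq_mul]
  field_simp
  ring

/-- The lower bound for the area of the image of an annulus. -/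
theorem lower_bound (hφ : DifferentiableOn ℂ φ (ball 0 1)) {r ρ : ℝ} (hr : 0 < r) (hrρ : r < ρ)
    (hρ : ρ < 1) :
    ENNReal.ofReal (π * (1 / r ^ 2 - 1 / ρ ^ 2) + π * ‖deriv φ 0‖ ^ 2 * (ρ ^ 2 - r ^ 2)) ≤
      ∫⁻ z in annulus r ρ, ENNReal.ofReal (‖derivH φ z‖ ^ 2) := by
  obtain ⟨b, hb⟩ : ∃ b, b = deriv φ 0 := ⟨_, rfl⟩
  rw [← lintegral_indicator (measurableSet_annulus r ρ), ← Complex.lintegral_comp_polarCoord_symm]
  have hsub : Ioo r ρ ×ˢ Ioo (-π) π ⊆ polarCoord.target := by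
    rw [polarCoord_target]
    exact prod_mono (fun s hs => hr.trans hs.1) subset_rfl
  refine le_trans ?_ (lintegral_mono_set hsub)
  have hsymm : ∀ p : ℝ × ℝ, Complex.polarCoord.symm p = circleMap 0 p.1 p.2 := fun p => by
    rw [Complex.polarCoord_symm_apply, circleMap_zero, Complex.exp_mul_I]
    push_cast
    ring
  have hcongr : ∀ p ∈ Ioo r ρ ×ˢ Ioo (-π) π,
      ENNReal.ofReal p.1 • (annulus r ρ).indicator (fun z => ENNReal.ofReal (‖derivH φ z‖ ^ 2))
          (Complex.polarCoord.symm p) =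
        ENNReal.ofReal (p.1 * ‖derivH φ (circleMap 0 p.1 p.2)‖ ^ 2) := fun p hp => by
    have h0 : 0 < p.1 := hr.trans hp.1.1
    rw [hsymm, indicator_of_mem
      (show circleMap 0 p.1 p.2 ∈ annulus r ρ by
        simp [annulus, abs_of_pos h0, hp.1.1.le, hp.1.2]),
      smul_eq_mul, ENNReal.ofReal_mul h0.le]
  rw [setLIntegral_congr_fun (measurableSet_Ioo.prod measurableSet_Ioo) hcongr]
  obtain ⟨F, hF⟩ : ∃ F : ℝ × ℝ → ℝ,
      F = fun p => p.1 * ‖derivH φ (circleMap 0 p.1 p.2)‖ ^ 2 := ⟨_, rfl⟩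
  have hcm : Continuous fun p : ℝ × ℝ => circleMap 0 p.1 p.2 := by
    simp only [circleMap_zero]
    fun_prop
  have hcont : ContinuousOn F (Ioo r ρ ×ˢ Icc (-π) π) := by
    rw [hF]
    refine continuous_fst.continuousOn.mul ((ContinuousOn.norm ?_).pow 2)
    refine ((hcm.continuousOn.pow 2).inv₀ fun p hp => pow_ne_zero 2
      (circleMap_ne_center (hr.trans hp.1.1).ne')).neg.add ?_
    refine ((hφ.deriv isOpen_ball).continuousOn).comp hcm.continuousOn fun p hp => ?_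
    rw [mem_ball_zero_iff, norm_circleMap_zero, abs_of_pos (hr.trans hp.1.1)]
    exact hp.1.2.trans hρ
  have hmeas : AEMeasurable (fun p => ENNReal.ofReal (F p))
      ((volume : Measure ℝ).restrict (Ioo r ρ) |>.prod
        ((volume : Measure ℝ).restrict (Ioo (-π) π))) := by
    rw [Measure.prod_restrict]
    exact ((hcont.mono (prod_mono subset_rfl Ioo_subset_Icc_self)).aemeasurable
      (measurableSet_Ioo.prod measurableSet_Ioo)).ennreal_ofReal
  rw [Measure.volume_eq_prod, ← Measure.prod_restrict]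
  simp only [show ∀ p : ℝ × ℝ, p.1 * ‖derivH φ (circleMap 0 p.1 p.2)‖ ^ 2 = F p from
    fun p => by rw [hF]]
  rw [lintegral_prod _ hmeas]
  have hinner : ∀ s ∈ Ioo r ρ, ENNReal.ofReal (2 * π * (1 / s ^ 3 + ‖b‖ ^ 2 * s)) ≤
      ∫⁻ θ in Ioo (-π) π, ENNReal.ofReal (F (s, θ)) := fun s hs => by
    have h0 : 0 < s := hr.trans hs.1
    have hc : ContinuousOn (fun θ => F (s, θ)) (Icc (-π) π) :=
      hcont.comp (by fun_prop) fun θ hθ => ⟨hs, hθ⟩
    rw [← ofReal_integral_eq_lintegral_ofReal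
      ((hc.integrableOn_Icc).mono_set Ioo_subset_Icc_self)
      (Eventually.of_forall fun θ => by rw [hF]; positivity)]
    refine ENNReal.ofReal_le_ofReal ?_
    rw [← integral_Ioc_eq_integral_Ioo,
      ← intervalIntegral.integral_of_le (by linarith [Real.pi_pos]), hF]
    simp only [intervalIntegral.integral_const_mul]
    refine le_trans (le_of_eq ?_)
      (mul_le_mul_of_nonneg_left (circle_bound hφ h0 (hs.2.trans hρ)) h0.le)
    rw [← hb]
    field_simp
  refine le_trans ?_ (setLIntegral_mono' measurableSet_Ioo hinner)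
  have hc2 : ContinuousOn (fun s : ℝ => 2 * π * (1 / s ^ 3 + ‖b‖ ^ 2 * s)) (Icc r ρ) := by
    refine continuousOn_const.mul (ContinuousOn.add ?_ (by fun_prop))
    exact continuousOn_const.div (by fun_prop) fun s hs => pow_ne_zero 3 (hr.trans_le hs.1).ne'
  rw [← ofReal_integral_eq_lintegral_ofReal (hc2.integrableOn_Icc.mono_set Ioo_subset_Icc_self)
    ((ae_restrict_mem measurableSet_Ioo).mono fun s hs => by
      have : 0 < s := hr.trans hs.1
      positivity)]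
  refine ENNReal.ofReal_le_ofReal (le_of_eq ?_)
  rw [← integral_Ioc_eq_integral_Ioo, ← intervalIntegral.integral_of_le hrρ.le,
    intervalIntegral.integral_eq_sub_of_hasDerivAt_of_le (f := fun s : ℝ =>
      π * (-1 / s ^ 2 + ‖b‖ ^ 2 * s ^ 2)) hrρ.le ?_ (fun s hs => ?_)
      (hc2.intervalIntegrable_of_Icc hrρ.le), ← hb]
  · ring
  · refine continuousOn_const.mul (ContinuousOn.add ?_ (by fun_prop))
    exact continuousOn_const.div (by fun_prop) fun s hs => pow_ne_zero 2 (hr.trans_le hs.1).ne'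
  · have h0 : s ≠ 0 := (hr.trans hs.1).ne'
    refine (((hasDerivAt_const s (-1 : ℝ)).div (hasDerivAt_pow 2 s) (pow_ne_zero 2 h0)).add
      ((hasDerivAt_pow 2 s).const_mul (‖b‖ ^ 2))).const_mul π |>.congr_deriv ?_
    field_simp
    ring

/-- **The area inequality.** -/
theorem norm_deriv_le_one (hφ : DifferentiableOn ℂ φ (ball 0 1)) (h0 : φ 0 = 0)
    (hinj : InjOn (fun z => z⁻¹ + φ z) (ball 0 1 \ {0})) : ‖deriv φ 0‖ ≤ 1 := by
  obtain ⟨b, hb⟩ : ∃ b, b = deriv φ 0 := ⟨_, rfl⟩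
  obtain ⟨h, hh⟩ : ∃ h : ℂ → ℂ, h = fun z => z⁻¹ + φ z := ⟨_, rfl⟩
  rw [← hh] at hinj
  have hU : IsOpen (ball (0 : ℂ) 1 \ {0}) := isOpen_ball.sdiff isClosed_singleton
  have hd : ∀ z ∈ ball (0 : ℂ) 1 \ {0}, HasDerivAt h (derivH φ z) z := fun z hz => by
    rw [hh, derivH]
    exact (hasDerivAt_inv (by simpa using hz.2)).add
      (hφ.differentiableAt (isOpen_ball.mem_nhds hz.1)).hasDerivAt
  -- `φ z - b z` is `O(z²)`
  have hA : AnalyticAt ℂ φ 0 := hφ.analyticAt (ball_mem_nhds 0 one_pos)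
  obtain ⟨C₀, δ, hC₀, hδ, hC⟩ : ∃ C₀ δ : ℝ, 0 ≤ C₀ ∧ 0 < δ ∧
      ∀ z : ℂ, ‖z‖ ≤ δ → ‖φ z - b * z‖ ≤ C₀ * ‖z‖ ^ 2 := by
    obtain ⟨p, hp⟩ := hA
    have h2 := hp.isBigO_sub_partialSum_pow 2
    have e : ∀ y : ℂ, p.partialSum 2 y = b * y := fun y => by
      have e0 : p.coeff 0 = 0 := by rw [FormalMultilinearSeries.coeff, hp.coeff_zero]; exact h0
      simp [FormalMultilinearSeries.partialSum, Finset.sum_range_succ, e0]
      rw [hb, hp.deriv]
      simp
      ring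
    obtain ⟨c, hc0, hc⟩ := h2.exists_nonneg
    rw [Asymptotics.isBigOWith_iff] at hc
    obtain ⟨δ, hδ, hball⟩ := Metric.eventually_nhds_iff.1 hc
    refine ⟨c, δ / 2, hc0, half_pos hδ, fun z hz => ?_⟩
    have := hball (y := z) (by rw [dist_zero_right]; linarith)
    simpa [e] using this
  -- the inequality for each pair `r < ρ`
  obtain ⟨C, hCdef⟩ : ∃ C : ℝ, C = C₀ + ‖b‖ ^ 2 + ‖b‖ * C₀ := ⟨_, rfl⟩
  have hCnn : 0 ≤ C := by rw [hCdef]; positivity
  have key : ∀ r ρ : ℝ, 0 < r → r < ρ → ρ < 1 → r ≤ δ → ‖b‖ * r ^ 2 < 1 →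
      (1 - (‖b‖ * r ^ 2) ^ 2) * (1 / r ^ 2 - 1 / ρ ^ 2 + ‖b‖ ^ 2 * (ρ ^ 2 - r ^ 2)) ≤
        (1 / r + C * r ^ 2) ^ 2 := by
    intro r ρ hr hrρ hρ hrδ hβ
    have hr1 : r < 1 := hrρ.trans hρ
    obtain ⟨β, hβdef⟩ : ∃ β : ℂ, β = b * (r : ℂ) ^ 2 := ⟨_, rfl⟩
    have hβn : ‖β‖ = ‖b‖ * r ^ 2 := by simp [hβdef]
    obtain ⟨R, hR⟩ : ∃ R : ℝ, R = 1 / r + C * r ^ 2 := ⟨_, rfl⟩
    have hR0 : 0 ≤ R := by rw [hR]; positivity
    have hsphere : ∀ z : ℂ, ‖z‖ = r → ‖shear β (h z)‖ ≤ R := fun z hz => by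
      have hz0 : z ≠ 0 := fun e => by rw [e, norm_zero] at hz; linarith
      obtain ⟨ψ, hψ⟩ : ∃ ψ, ψ = φ z - b * z := ⟨_, rfl⟩
      have hψn : ‖ψ‖ ≤ C₀ * r ^ 2 := hψ ▸ hz ▸ hC z (hz ▸ hrδ)
      have hcz : (r : ℂ) ^ 2 * (conj z)⁻¹ = z := by
        rw [← hz, ← Complex.mul_conj', mul_assoc, mul_inv_cancel₀ (by simpa using hz0), mul_one]
      have e : shear β (h z) = z⁻¹ + ψ - b * (r : ℂ) ^ 2 * conj b * conj z -
          b * (r : ℂ) ^ 2 * conj ψ := by
        rw [shear_apply, hh, hβdef]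
        simp only [show φ z = b * z + ψ by rw [hψ]; ring, map_add, map_mul, map_inv₀]
        linear_combination -b * hcz
      rw [e]
      refine (norm_sub_le _ _).trans ((add_le_add ((norm_sub_le _ _).trans
        (add_le_add (norm_add_le _ _) le_rfl)) le_rfl).trans ?_)
      simp only [norm_mul, norm_pow, Complex.norm_real, Real.norm_of_nonneg hr.le, RCLike.norm_conj,
        norm_inv, hz]
      rw [hR, hCdef, one_div]
      have hr2 : r ^ 2 * r ≤ r ^ 2 := mul_le_of_le_one_right (by positivity) hr1.le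
      have hb2 : ‖b‖ * r ^ 2 * ‖b‖ * r ≤ ‖b‖ ^ 2 * r ^ 2 := by
        rw [show ‖b‖ * r ^ 2 * ‖b‖ * r = ‖b‖ ^ 2 * (r ^ 2 * r) by ring]
        exact mul_le_mul_of_nonneg_left hr2 (by positivity)
      have hb3 : ‖b‖ * r ^ 2 * ‖ψ‖ ≤ ‖b‖ * C₀ * r ^ 2 := by
        refine le_trans (mul_le_mul_of_nonneg_left hψn (by positivity)) ?_
        rw [show ‖b‖ * r ^ 2 * (C₀ * r ^ 2) = ‖b‖ * C₀ * r ^ 2 * r ^ 2 by ring]
        exact mul_le_of_le_one_right (by positivity) (pow_le_one₀ hr.le hr1.le)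
      nlinarith
    have hout : ∀ z ∈ ball (0 : ℂ) 1 \ {0}, r ≤ ‖z‖ → ‖shear β (h z)‖ ≤ R := by
      intro z hz hzr
      rcases eq_or_ne (shear β (h z)) 0 with h0' | h0'
      · rw [h0', norm_zero]; exact hR0
      obtain ⟨e, he⟩ : ∃ e : ℂ, e = shear β (h z) / ‖shear β (h z)‖ := ⟨_, rfl⟩
      obtain ⟨c, hc⟩ : ∃ c : ℂ, c = conj e - e * conj β := ⟨_, rfl⟩
      have hre : ∀ w : ℂ, (c * w).re = (conj e * shear β w).re := fun w => by
        rw [hc, shear_apply]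
        simp
        ring
      have hsup : (c * h z).re = ‖shear β (h z)‖ := by
        rw [hre, he, map_div₀, Complex.conj_ofReal, div_mul_eq_mul_div, Complex.conj_mul', pow_two,
          mul_div_assoc, div_self (by simpa using h0'), mul_one, ofReal_re]
      rw [← hsup]
      refine re_le_of_sphere (fun w hw => (hd w hw).differentiableAt.differentiableWithinAt) hinj
        hφ.continuousOn (fun w _ => by rw [hh]) hr hr1 (fun w hw => ?_) z hz hzr
      rw [hre]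
      refine (Complex.re_le_norm _).trans ?_
      rw [norm_mul, RCLike.norm_conj, he, norm_div, Complex.norm_real, norm_norm,
        div_self (norm_ne_zero_iff.2 h0'), one_mul]
      exact hsphere w hw
    have hAU : annulus r ρ ⊆ ball 0 1 \ {0} := fun z hz =>
      ⟨mem_ball_zero_iff.2 (hz.2.trans hρ), fun e => by
        simp at e
        have := hz.1
        simp [e] at this
        linarith⟩
    have hdet : (shear β : ℂ →ₗ[ℝ] ℂ).det = 1 - (‖b‖ * r ^ 2) ^ 2 := by rw [det_shear, hβn]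
    have hpos : 0 < 1 - (‖b‖ * r ^ 2) ^ 2 := by
      have : 0 ≤ ‖b‖ * r ^ 2 := by positivity
      nlinarith
    have hvol := lintegral_abs_det_fderiv_eq_addHaar_image (μ := volume)
      (measurableSet_annulus r ρ)
      (fun z hz => ((hd z (hAU hz)).hasFDerivAt.restrictScalars ℝ).hasFDerivWithinAt)
      (hinj.mono hAU)
    have hdet2 : ∀ z : ℂ,
        ((ContinuousLinearMap.toSpanSingleton ℂ (derivH φ z)).restrictScalars ℝ).det =
          ‖derivH φ z‖ ^ 2 := fun z => by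
      rw [← det_derivative]
      congr 1
      ext
      simp [mul_comm]
    simp only [hdet2, abs_pow, abs_norm] at hvol
    have hlow := (lower_bound hφ hr hrρ hρ).trans_eq hvol
    have himg : volume (shear β '' (h '' annulus r ρ)) ≤ volume (closedBall (0 : ℂ) R) := by
      refine measure_mono ?_
      rintro _ ⟨_, ⟨z, hz, rfl⟩, rfl⟩
      exact mem_closedBall_zero_iff.2 (hout z (hAU hz) hz.1)
    rw [show (shear β '' (h '' annulus r ρ)) = (shear β : ℂ →ₗ[ℝ] ℂ) '' (h '' annulus r ρ) from rfl,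
      Measure.addHaar_image_linearMap, hdet, abs_of_pos hpos, Complex.volume_closedBall] at himg
    have := (mul_le_mul_right hlow (ENNReal.ofReal (1 - (‖b‖ * r ^ 2) ^ 2))).trans himg
    rw [← ENNReal.ofReal_mul hpos.le, ← hb, ← ENNReal.ofReal_pow hR0,
      ← ENNReal.ofReal_coe_nnreal, ← ENNReal.ofReal_mul (by positivity),
      ENNReal.ofReal_le_ofReal_iff (by positivity), NNReal.coe_real_pi] at this
    refine le_of_mul_le_mul_left ?_ Real.pi_pos
    rw [hR] at this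
    linarith
  -- let `r` tend to `0`
  have hlim : ∀ ρ : ℝ, 0 < ρ → ρ < 1 → ‖b‖ ^ 2 * ρ ^ 2 ≤ 1 / ρ ^ 2 := by
    intro ρ hρ0 hρ
    have h1 : Tendsto (fun r : ℝ => (1 - (‖b‖ * r ^ 2) ^ 2) *
        (-1 / ρ ^ 2 + ‖b‖ ^ 2 * (ρ ^ 2 - r ^ 2)) - ‖b‖ ^ 2 * r ^ 2 - 2 * C * r - C ^ 2 * r ^ 4)
        (𝓝[>] 0) (𝓝 (-1 / ρ ^ 2 + ‖b‖ ^ 2 * ρ ^ 2)) := by
      refine (Continuous.tendsto' (by fun_prop) 0 _ ?_).mono_left nhdsWithin_le_nhds
      ring
    have hev : ∀ᶠ r : ℝ in 𝓝[>] 0, ‖b‖ * r ^ 2 < 1 :=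
      nhdsWithin_le_nhds ((Continuous.tendsto' (by fun_prop) 0 0 (by simp)).eventually
        (Iio_mem_nhds one_pos))
    have := le_of_tendsto h1 (b := 0) ?_
    · rw [neg_div] at this
      linarith
    · filter_upwards [hev, Ioo_mem_nhdsGT (lt_min hρ0 hδ)] with r hr1 hr2
      have hr0 : r ≠ 0 := hr2.1.ne'
      have hk := key r ρ hr2.1 (hr2.2.trans_le (min_le_left _ _)) hρ
        (hr2.2.le.trans (min_le_right _ _)) hr1
      have e1 : (1 - (‖b‖ * r ^ 2) ^ 2) * (1 / r ^ 2) = 1 / r ^ 2 - ‖b‖ ^ 2 * r ^ 2 := by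
        field_simp
      have e2 : (1 / r + C * r ^ 2) ^ 2 = 1 / r ^ 2 + 2 * C * r + C ^ 2 * r ^ 4 := by
        field_simp
        ring
      rw [e2, show 1 / r ^ 2 - 1 / ρ ^ 2 + ‖b‖ ^ 2 * (ρ ^ 2 - r ^ 2) =
        1 / r ^ 2 + (-1 / ρ ^ 2 + ‖b‖ ^ 2 * (ρ ^ 2 - r ^ 2)) by ring, mul_add, e1] at hk
      linarith
  have h1 : Tendsto (fun ρ : ℝ => ‖b‖ ^ 2 * ρ ^ 2 - 1 / ρ ^ 2) (𝓝[<] 1) (𝓝 (‖b‖ ^ 2 - 1)) := by
    have hc : ContinuousAt (fun ρ : ℝ => ‖b‖ ^ 2 * ρ ^ 2 - 1 / ρ ^ 2) 1 :=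
      (continuousAt_const.mul (continuousAt_id.pow 2)).sub
        (continuousAt_const.div (continuousAt_id.pow 2) (by norm_num))
    simpa using hc.tendsto.mono_left nhdsWithin_le_nhds
  have h2 := le_of_tendsto h1 (b := 0) (by
    filter_upwards [Ioo_mem_nhdsLT zero_lt_one] with ρ hρ
    linarith [hlim ρ hρ.1 hρ.2])
  rw [← hb]
  nlinarith [norm_nonneg b]

end FA.Univalent

end
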