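import Mathlib

/-!
# Univalent functions

An injective holomorphic function has non-vanishing derivative, and a univalent function on a
punctured disc with a pole at the centre takes its values outside every half plane missed by the
bounding circle only once.
-/

set_option autoImplicit false

noncomputable section

namespace FA.Univalent

open Complex Filter Topology Set Metric
open scoped Real

/-- An injective holomorphic function has non-vanishing derivative. -/
theorem deriv_ne_zero {f : ℂ → ℂ} {U : Set ℂ} (hU : IsOpen U) (hf : DifferentiableOn ℂ f U)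
    (hinj : InjOn f U) {a : ℂ} (ha : a ∈ U) : deriv f a ≠ 0 := by
  obtain ⟨F, hF⟩ : ∃ F : ℂ → ℂ, F = fun z => f z - f a := ⟨_, rfl⟩
  have hFa : AnalyticAt ℂ F a :=
    hF ▸ ((hf.analyticAt (hU.mem_nhds ha)).sub analyticAt_const)
  have hne : analyticOrderAt F a ≠ ⊤ := fun h => by
    rw [analyticOrderAt_eq_top] at h
    obtain ⟨z, hz, hza⟩ := ((h.and (hU.mem_nhds ha)).filter_mono nhdsWithin_le_nhds).and
      (self_mem_nhdsWithin : {a}ᶜ ∈ 𝓝[≠] a) |>.exists
    exact hza (hinj hz.2 ha (by simpa [hF, sub_eq_zero] using hz.1))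
  obtain ⟨g, hga, hg0, hFg⟩ := (hFa.analyticOrderAt_ne_top).1 hne
  obtain ⟨m, hm⟩ : ∃ m, m = analyticOrderNatAt F a := ⟨_, rfl⟩
  rw [← hm] at hFg
  have hm0 : m ≠ 0 := fun h => hg0 (by
    have := hFg.eq_of_nhds
    simp [h, hF] at this
    exact this.symm)
  intro hd
  have hderF : deriv F a = 0 := by rw [hF, deriv_sub_const, hd]
  have hm1 : m ≠ 1 := fun h => hg0 (by
    have h1 : HasDerivAt (fun z => (z - a) ^ m • g z) (g a) a := by
      simp only [h, pow_one, smul_eq_mul]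
      exact (((hasDerivAt_id a).sub_const a).mul hga.differentiableAt.hasDerivAt).congr_deriv
        (by simp)
    rw [← h1.deriv, ← hFg.deriv_eq, hderF])
  -- an `m`-th root of `g` near `a`
  obtain ⟨c, hc⟩ : ∃ c : ℂ, c = g a ^ ((m : ℂ)⁻¹) := ⟨_, rfl⟩
  have hcm : c ^ m = g a := by rw [hc, cpow_nat_inv_pow _ hm0]
  have hc0 : c ≠ 0 := fun h => hg0 (by rw [← hcm, h, zero_pow hm0])
  obtain ⟨v, hv⟩ : ∃ v : ℂ → ℂ,
      v = fun z => (z - a) * (c * Complex.exp (Complex.log (g z / g a) / m)) := ⟨_, rfl⟩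
  have hwa : AnalyticAt ℂ (fun z => c * Complex.exp (Complex.log (g z / g a) / m)) a :=
    analyticAt_const.mul ((((hga.div_const).clog (by simp [hg0]))).div_const.cexp)
  have hva : AnalyticAt ℂ v a := hv ▸ (analyticAt_id.sub analyticAt_const).mul hwa
  have hv' : HasDerivAt v c a := by
    rw [hv]
    refine (((hasDerivAt_id a).sub_const a).mul hwa.differentiableAt.hasDerivAt).congr_deriv ?_
    simp [div_self hg0]
  have hstrict : HasStrictDerivAt v c a := by
    have := hva.hasStrictDerivAt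
    rwa [hv'.deriv] at this
  have hmap : Filter.map v (𝓝 a) = 𝓝 0 := by
    have := hstrict.map_nhds_eq hc0
    rwa [show v a = 0 by simp [hv]] at this
  have hgood : ∀ᶠ z in 𝓝 a, z ∈ U ∧ F z = v z ^ m := by
    filter_upwards [hU.mem_nhds ha, hFg,
      hga.continuousAt.eventually_ne hg0] with z hzU hz hgz
    refine ⟨hzU, ?_⟩
    rw [hz, hv, mul_pow, mul_pow, hcm, ← Complex.exp_nat_mul,
      mul_div_cancel₀ _ (Nat.cast_ne_zero.2 hm0), Complex.exp_log (div_ne_zero hgz hg0),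
      smul_eq_mul, mul_div_cancel₀ _ hg0]
  have himg : v '' {z | z ∈ U ∧ F z = v z ^ m} ∈ 𝓝 0 := hmap ▸ image_mem_map hgood
  obtain ⟨ζ, hζ, hζm⟩ : ∃ ζ : ℂ, ζ ≠ 1 ∧ ζ ^ m = 1 :=
    ⟨_, (Complex.isPrimitiveRoot_exp m hm0).ne_one (by omega),
      (Complex.isPrimitiveRoot_exp m hm0).pow_eq_one⟩
  have himg' : (fun y => ζ * y) ⁻¹' (v '' {z | z ∈ U ∧ F z = v z ^ m}) ∈ 𝓝 (0 : ℂ) :=
    (continuous_const_mul ζ).continuousAt.preimage_mem_nhds (by simpa using himg)
  obtain ⟨y, ⟨⟨z₁, hz₁, hy₁⟩, z₂, hz₂, hy₂⟩, hy0⟩ :=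
    ((Filter.inter_mem himg himg' : _ ∈ 𝓝 (0 : ℂ)) |> fun h =>
      Filter.inter_mem (mem_nhdsWithin_of_mem_nhds h)
        (self_mem_nhdsWithin : ({0}ᶜ : Set ℂ) ∈ 𝓝[≠] 0)) |> Filter.nonempty_of_mem
  have h12 : F z₁ = F z₂ := by rw [hz₁.2, hz₂.2, hy₁, hy₂, mul_pow, hζm, one_mul]
  have heq : z₁ = z₂ := hinj hz₁.1 hz₂.1 (by simpa [hF] using h12)
  rw [← heq, hy₁] at hy₂
  exact hζ (mul_right_cancel₀ hy0 (hy₂.symm.trans (one_mul y).symm))

/-- The image of an open set under an injective holomorphic function is open. -/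
theorem isOpen_image {f : ℂ → ℂ} {U V : Set ℂ} (hU : IsOpen U) (hf : DifferentiableOn ℂ f U)
    (hinj : InjOn f U) (hV : IsOpen V) (hVU : V ⊆ U) : IsOpen (f '' V) := by
  rw [isOpen_iff_mem_nhds]
  rintro _ ⟨a, ha, rfl⟩
  have hA := hf.analyticAt (hU.mem_nhds (hVU ha))
  rw [← hA.hasStrictDerivAt.map_nhds_eq (deriv_ne_zero hU hf hinj (hVU ha))]
  exact image_mem_map (hV.mem_nhds ha)

/-- A nonvanishing holomorphic function on a disc has a holomorphic logarithm. -/
theorem exists_log {u : ℂ → ℂ} {R : ℝ} (hR : 0 < R) (hu : DifferentiableOn ℂ u (ball 0 R))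
    (hu0 : ∀ z ∈ ball (0 : ℂ) R, u z ≠ 0) (h1 : u 0 = 1) :
    ∃ M : ℂ → ℂ, M 0 = 0 ∧ (∀ z ∈ ball (0 : ℂ) R, HasDerivAt M (deriv u z / u z) z) ∧
      ∀ z ∈ ball (0 : ℂ) R, Complex.exp (M z) = u z := by
  have hq : DifferentiableOn ℂ (fun z => deriv u z / u z) (ball 0 R) :=
    (hu.deriv isOpen_ball).div hu hu0
  obtain ⟨L, hL⟩ := hq.isExactOn_ball
  refine ⟨fun z => L z - L 0, sub_self _, fun z hz => (hL z hz).sub_const _, fun z hz => ?_⟩
  obtain ⟨P, hP⟩ : ∃ P : ℂ → ℂ, P = fun w => Complex.exp (-(L w - L 0)) * u w := ⟨_, rfl⟩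
  have hd : ∀ w ∈ ball (0 : ℂ) R, HasDerivAt P 0 w := fun w hw => by
    rw [hP]
    refine (((hL w hw).sub_const _).fun_neg.cexp.mul
      (hu.differentiableAt (isOpen_ball.mem_nhds hw)).hasDerivAt).congr_deriv ?_
    have := hu0 w hw
    field_simp
    ring
  have hconst : P z = P 0 := isOpen_ball.is_const_of_deriv_eq_zero
    (convex_ball 0 R).isPreconnected (fun w hw => (hd w hw).differentiableAt.differentiableWithinAt)
    (fun w hw => (hd w hw).deriv) hz (mem_ball_self hR)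
  rw [hP] at hconst
  simp only [sub_self, neg_zero, Complex.exp_zero, h1, one_mul, Complex.exp_neg] at hconst
  rwa [inv_mul_eq_one₀ (Complex.exp_ne_zero _)] at hconst

/-- If the circle `‖z‖ = r` stays outside the half plane `re (c w) > R`, so does the part of the
disc outside it. -/
theorem re_le_of_sphere {h : ℂ → ℂ} {φ : ℂ → ℂ} (hd : DifferentiableOn ℂ h (ball 0 1 \ {0}))
    (hinj : InjOn h (ball 0 1 \ {0})) (hφ : ContinuousOn φ (ball 0 1))
    (hh : ∀ z ∈ ball (0 : ℂ) 1 \ {0}, h z = z⁻¹ + φ z) {r : ℝ} (hr0 : 0 < r) (hr1 : r < 1)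
    {c : ℂ} {R : ℝ} (hc : ∀ z : ℂ, ‖z‖ = r → (c * h z).re ≤ R) :
    ∀ z ∈ ball (0 : ℂ) 1 \ {0}, r ≤ ‖z‖ → (c * h z).re ≤ R := by
  intro z₀ hz₀ hz₀r
  rcases hz₀r.lt_or_eq with hlt | heq
  swap
  · exact hc z₀ heq.symm
  by_contra hgt
  rw [not_le] at hgt
  have hc0 : c ≠ 0 := fun e => by
    subst e
    have := hc (r : ℂ) (by rw [Complex.norm_real, Real.norm_of_nonneg hr0.le])
    simp at this hgt
    linarith
  obtain ⟨B, hB⟩ := (isCompact_closedBall (0 : ℂ) r).exists_bound_of_continuousOn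
    (hφ.mono (closedBall_subset_ball hr1))
  have hB0 : 0 ≤ B := (norm_nonneg _).trans (hB 0 (mem_closedBall_self hr0.le))
  set P : Set ℂ := ball 0 r \ {0}
  have hPU : P ⊆ ball 0 1 \ {0} := sdiff_subset_sdiff_left (ball_subset_ball hr1.le)
  set H : Set ℂ := {w | R < (c * w).re}
  have hHc : IsPreconnected H := by
    refine Convex.isPreconnected ?_
    exact (convex_halfSpace_re_gt R).linear_preimage (LinearMap.mulLeft ℝ c)
  have hopen : IsOpen (h '' P) :=
    isOpen_image (isOpen_ball.sdiff isClosed_singleton) hd hinj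
      (isOpen_ball.sdiff isClosed_singleton) hPU
  have hne : (H ∩ h '' P).Nonempty := by
    obtain ⟨t, ht0, htr, ht⟩ : ∃ t : ℝ, 0 < t ∧ t < r ∧ R < ‖c‖ / t - ‖c‖ * B := by
      refine ⟨min (r / 2) (‖c‖ / (|R| + ‖c‖ * B + 1)), by positivity,
        (min_le_left _ _).trans_lt (by linarith), ?_⟩
      have hm := min_le_right (r / 2) (‖c‖ / (|R| + ‖c‖ * B + 1))
      have hpos : 0 < min (r / 2) (‖c‖ / (|R| + ‖c‖ * B + 1)) := by positivity
      rw [le_div_iff₀ (by positivity), mul_comm, ← le_div_iff₀ hpos] at hm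
      linarith [le_abs_self R]
    obtain ⟨z, hz⟩ : ∃ z : ℂ, z = (t / ‖c‖ : ℝ) * c := ⟨_, rfl⟩
    have hcn : 0 < ‖c‖ := norm_pos_iff.2 hc0
    have hzn : ‖z‖ = t := by
      rw [hz, norm_mul, Complex.norm_real, Real.norm_of_nonneg (by positivity),
        div_mul_cancel₀ _ hcn.ne']
    have hzP : z ∈ P := ⟨by rw [mem_ball_zero_iff, hzn]; exact htr,
      fun e => by simp at e; rw [e, norm_zero] at hzn; linarith⟩
    refine ⟨h z, ?_, z, hzP, rfl⟩
    show R < (c * h z).re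
    have e1 : c * z⁻¹ = ((‖c‖ / t : ℝ) : ℂ) := by
      rw [hz]
      push_cast
      field_simp
    rw [hh z (hPU hzP), mul_add, e1, add_re, ofReal_re]
    have h2 : ‖c * φ z‖ ≤ ‖c‖ * B := by
      rw [norm_mul]
      exact mul_le_mul_of_nonneg_left
        (hB z (by rw [mem_closedBall_zero_iff, hzn]; exact htr.le)) hcn.le
    have := (abs_le.1 ((Complex.abs_re_le_norm (c * φ z)).trans h2)).1
    linarith
  have hclosed : closure (h '' P) ∩ H ⊆ h '' P := by
    rintro w ⟨hwcl, hwH⟩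
    obtain ⟨δ, hδ⟩ : ∃ δ : ℝ, δ = min r (1 / (‖w‖ + B + 2)) := ⟨_, rfl⟩
    have hδ0 : 0 < δ := by rw [hδ]; positivity
    have hδr : δ ≤ r := hδ ▸ min_le_left _ _
    set K : Set ℂ := closedBall 0 r ∩ {z | δ ≤ ‖z‖}
    have hK : IsCompact K :=
      (isCompact_closedBall 0 r).inter_right (isClosed_le continuous_const continuous_norm)
    have hKU : K ⊆ ball 0 1 \ {0} := fun z hz =>
      ⟨closedBall_subset_ball hr1 hz.1, fun e => by
        simp at e
        have := hz.2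
        simp [e] at this
        linarith⟩
    have hsub : h '' P ⊆ h '' K ∪ {u | ‖w‖ + 1 ≤ ‖u‖} := by
      rintro _ ⟨z, hz, rfl⟩
      rcases le_or_gt δ ‖z‖ with hle | hgt'
      · exact Or.inl ⟨z, ⟨ball_subset_closedBall hz.1, hle⟩, rfl⟩
      · refine Or.inr ?_
        have hz0 : 0 < ‖z‖ := norm_pos_iff.2 fun e => hz.2 (by simp [e])
        have h1 : ‖w‖ + B + 2 ≤ ‖z⁻¹‖ := by
          have := hgt'.le.trans (hδ ▸ min_le_right r _)
          rw [le_div_iff₀ (by positivity)] at this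
          rw [norm_inv, ← one_div, le_div_iff₀ hz0]
          linarith
        have h2 := hB z (ball_subset_closedBall hz.1)
        show ‖w‖ + 1 ≤ ‖h z‖
        rw [hh z (hPU hz)]
        linarith [norm_le_add_norm_add z⁻¹ (φ z)]
    have hcl : IsClosed (h '' K ∪ {u | ‖w‖ + 1 ≤ ‖u‖}) :=
      ((hK.image_of_continuousOn (hd.continuousOn.mono hKU)).isClosed).union
        (isClosed_le continuous_const continuous_norm)
    rcases hcl.closure_subset_iff.2 hsub hwcl with ⟨z, hz, rfl⟩ | hbig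
    · rcases (mem_closedBall_zero_iff.1 hz.1).lt_or_eq with hzr | hzr
      · exact ⟨z, ⟨mem_ball_zero_iff.2 hzr, (hKU hz).2⟩, rfl⟩
      · exact absurd (hc z hzr) (not_le.2 hwH)
    · simp at hbig; linarith
  obtain ⟨z₁, hz₁, he⟩ := hHc.subset_of_closure_inter_subset hopen hne hclosed
    (show h z₀ ∈ H from hgt)
  rw [hinj (hPU hz₁) hz₀ he, Set.mem_sdiff, mem_ball_zero_iff] at hz₁
  linarith [hz₁.1]

end FA.Univalent

end
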