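import Fermat.Agent.Univalent.Area

/-!
# Bieberbach's inequality and Koebe's quarter theorem

For `f` univalent on the unit disc with `f 0 = 0`, `f' 0 = 1`, the area inequality applied to
`1 / √(f (z²))` gives `‖f'' 0‖ ≤ 4`; composing with `y ↦ w y / (w - y)` for an omitted value `w`
gives `‖w‖ ≥ 1/4`. The function `z / (1 - z)²` shows that both are sharp.
-/

set_option autoImplicit false

noncomputable section

namespace FA.Univalent

open Complex Filter Topology Set Metric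

variable {f : ℂ → ℂ}

/-- **Bieberbach**: `|a₂| ≤ 2`, i.e. `‖f'' 0‖ ≤ 4`. -/
theorem bieberbach_two (hf : DifferentiableOn ℂ f (ball 0 1)) (hinj : InjOn f (ball 0 1))
    (h0 : f 0 = 0) (h1 : deriv f 0 = 1) : ‖deriv (deriv f) 0‖ ≤ 4 := by
  have hn : ball (0 : ℂ) 1 ∈ 𝓝 (0 : ℂ) := ball_mem_nhds 0 one_pos
  have hm : (0 : ℂ) ∈ ball (0 : ℂ) 1 := mem_ball_self one_pos
  obtain ⟨u, hu⟩ : ∃ u : ℂ → ℂ, u = dslope f 0 := ⟨_, rfl⟩
  have hud : DifferentiableOn ℂ u (ball 0 1) := hu ▸ (differentiableOn_dslope hn).2 hf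
  have hfu : ∀ z, f z = z * u z := fun z => by
    simpa [hu, h0] using (sub_smul_dslope f 0 z).symm
  have hu1 : u 0 = 1 := by rw [hu, dslope_same, h1]
  have hune : ∀ z ∈ ball (0 : ℂ) 1, u z ≠ 0 := fun z hz e => by
    have hz0 : f z = f 0 := by rw [h0, hfu, e, mul_zero]
    rw [hinj hz hm hz0, hu1] at e
    exact one_ne_zero e
  have hsecond : deriv (deriv f) 0 = 2 * deriv u 0 := by
    have hev : deriv f =ᶠ[𝓝 0] fun z => u z + z * deriv u z := by
      filter_upwards [hn] with z hz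
      rw [show f = fun z => z * u z from funext hfu]
      exact ((hasDerivAt_id z).mul
        (hud.differentiableAt (isOpen_ball.mem_nhds hz)).hasDerivAt).deriv.trans (by simp)
    rw [hev.deriv_eq]
    refine (((hud.differentiableAt hn).hasDerivAt.add ((hasDerivAt_id (0 : ℂ)).mul
      ((hud.deriv isOpen_ball).differentiableAt hn).hasDerivAt))).deriv.trans ?_
    simp
    ring
  obtain ⟨L, hL0, hL, hLe⟩ := exists_log one_pos hud hune hu1
  obtain ⟨E, hE⟩ : ∃ E : ℂ → ℂ, E = fun w => Complex.exp (-L w / 2) := ⟨_, rfl⟩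
  have hEd : ∀ w ∈ ball (0 : ℂ) 1, HasDerivAt E (E w * (-(deriv u w / u w) / 2)) w := fun w hw => by
    rw [hE]
    exact ((hL w hw).fun_neg.div_const 2).cexp
  have hE0 : E 0 = 1 := by simp [hE, hL0]
  obtain ⟨D, hD⟩ : ∃ D : ℂ → ℂ, D = dslope E 0 := ⟨_, rfl⟩
  have hDd : DifferentiableOn ℂ D (ball 0 1) := hD ▸ (differentiableOn_dslope hn).2
    fun w hw => (hEd w hw).differentiableAt.differentiableWithinAt
  have hD0 : D 0 = -deriv u 0 / 2 := by
    rw [hD, dslope_same, (hEd 0 hm).deriv, hE0, hu1]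
    ring
  have hED : ∀ w, E w = 1 + w * D w := fun w => by
    have := sub_smul_dslope E 0 w
    rw [hE0, ← hD, sub_zero, smul_eq_mul] at this
    linear_combination -this
  have hsq : ∀ z ∈ ball (0 : ℂ) 1, z ^ 2 ∈ ball (0 : ℂ) 1 := fun z hz => by
    rw [mem_ball_zero_iff] at hz ⊢
    rw [norm_pow]
    exact pow_lt_one₀ (norm_nonneg _) hz two_ne_zero
  have hD2 : DifferentiableOn ℂ (fun z => D (z ^ 2)) (ball 0 1) :=
    hDd.comp (differentiableOn_id.pow 2) fun z hz => hsq z hz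
  have key := norm_deriv_le_one (φ := fun z => z * D (z ^ 2)) (differentiableOn_id.mul hD2)
    (by simp) ?_
  · have e : deriv (fun z => z * D (z ^ 2)) 0 = D 0 := by
      refine ((hasDerivAt_id (0 : ℂ)).mul (hD2.differentiableAt hn).hasDerivAt).deriv.trans ?_
      simp
    rw [e, hD0, norm_div, norm_neg, Complex.norm_ofNat] at key
    rw [hsecond, norm_mul, Complex.norm_ofNat]
    linarith
  · intro a ha b hb hab
    have hval : ∀ z ∈ ball (0 : ℂ) 1 \ {0},
        z⁻¹ + z * D (z ^ 2) = z⁻¹ * E (z ^ 2) ∧ (z⁻¹ * E (z ^ 2)) ^ 2 = (f (z ^ 2))⁻¹ :=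
      fun z hz => by
        have hz0 : z ≠ 0 := by simpa using hz.2
        refine ⟨?_, ?_⟩
        · rw [hED]
          field_simp
        · rw [hfu, ← hLe _ (hsq z hz.1), mul_pow, hE, ← Complex.exp_nat_mul, mul_inv,
            ← Complex.exp_neg, inv_pow]
          congr 2
          push_cast
          ring
    simp only [(hval a ha).1, (hval b hb).1] at hab
    have h2 := congrArg (· ^ 2) hab
    simp only [(hval a ha).2, (hval b hb).2, inv_inj] at h2
    have hab2 := hinj (hsq a ha.1) (hsq b hb.1) h2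
    rw [hab2] at hab
    exact inv_injective (mul_right_cancel₀ (by rw [hE]; exact Complex.exp_ne_zero _) hab)

/-- **Koebe's quarter theorem.** -/
theorem koebe_quarter (hf : DifferentiableOn ℂ f (ball 0 1)) (hinj : InjOn f (ball 0 1))
    (h0 : f 0 = 0) (h1 : deriv f 0 = 1) : ball (0 : ℂ) (1 / 4) ⊆ f '' ball 0 1 := by
  intro w hw
  rw [mem_ball_zero_iff] at hw
  by_contra hnot
  have hm : (0 : ℂ) ∈ ball (0 : ℂ) 1 := mem_ball_self one_pos
  have hne : ∀ z ∈ ball (0 : ℂ) 1, w - f z ≠ 0 := fun z hz e =>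
    hnot ⟨z, hz, (sub_eq_zero.1 e).symm⟩
  have hw0 : w ≠ 0 := fun e => hnot ⟨0, hm, by rw [h0, e]⟩
  obtain ⟨g, hg⟩ : ∃ g : ℂ → ℂ, g = fun z => w * f z / (w - f z) := ⟨_, rfl⟩
  have hd : ∀ z ∈ ball (0 : ℂ) 1, HasDerivAt g (w ^ 2 * deriv f z / (w - f z) ^ 2) z :=
    fun z hz => by
      have h := (hf.differentiableAt (isOpen_ball.mem_nhds hz)).hasDerivAt
      rw [hg]
      exact ((h.const_mul w).div (h.const_sub w) (hne z hz)).congr_deriv (by ring)
  have hginj : InjOn g (ball 0 1) := fun a ha b hb hab => by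
    simp only [hg] at hab
    rw [div_eq_div_iff (hne a ha) (hne b hb)] at hab
    exact hinj ha hb (mul_left_cancel₀ (pow_ne_zero 2 hw0) (by linear_combination hab))
  have hg1 : deriv g 0 = 1 := by
    rw [(hd 0 hm).deriv, h0, h1, sub_zero]
    field_simp
  have hn : ball (0 : ℂ) 1 ∈ 𝓝 (0 : ℂ) := ball_mem_nhds 0 one_pos
  have hg2 : deriv (deriv g) 0 = deriv (deriv f) 0 + 2 / w := by
    have hev : deriv g =ᶠ[𝓝 0] fun z => w ^ 2 * deriv f z / (w - f z) ^ 2 := by
      filter_upwards [hn] with z hz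
      exact (hd z hz).deriv
    rw [hev.deriv_eq]
    refine ((((hf.deriv isOpen_ball).differentiableAt hn).hasDerivAt.const_mul (w ^ 2)).div
      (((hf.differentiableAt hn).hasDerivAt.const_sub w).pow 2)
        (pow_ne_zero 2 (hne 0 hm))).deriv.trans ?_
    simp [h0, h1]
    field_simp
  have hb1 := bieberbach_two hf hinj h0 h1
  have hb2 := bieberbach_two (fun z hz => (hd z hz).differentiableAt.differentiableWithinAt)
    hginj (by simp [hg, h0]) hg1
  rw [hg2] at hb2
  have h8 : ‖(2 : ℂ) / w‖ ≤ 8 := by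
    calc ‖(2 : ℂ) / w‖ = ‖deriv (deriv f) 0 + 2 / w - deriv (deriv f) 0‖ := by
          rw [add_sub_cancel_left]
      _ ≤ _ := norm_sub_le _ _
      _ ≤ 8 := by linarith
  rw [norm_div, Complex.norm_ofNat, div_le_iff₀ (norm_pos_iff.2 hw0)] at h8
  linarith

/-- Koebe's quarter theorem on an arbitrary disc. -/
theorem koebe_quarter_ball {a : ℂ} {R : ℝ} (hR : 0 < R) (hf : DifferentiableOn ℂ f (ball a R))
    (hinj : InjOn f (ball a R)) : ball (f a) (‖deriv f a‖ * R / 4) ⊆ f '' ball a R := by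
  have hd0 : deriv f a ≠ 0 := deriv_ne_zero isOpen_ball hf hinj (mem_ball_self hR)
  have hmem : ∀ z ∈ ball (0 : ℂ) 1, a + R * z ∈ ball a R := fun z hz => by
    rw [mem_ball_zero_iff] at hz
    rw [mem_ball_iff_norm, add_sub_cancel_left, norm_mul, Complex.norm_real,
      Real.norm_of_nonneg hR.le]
    exact mul_lt_of_lt_one_right hR hz
  have hk : (R : ℂ) * deriv f a ≠ 0 := mul_ne_zero (ofReal_ne_zero.2 hR.ne') hd0
  obtain ⟨g, hg⟩ : ∃ g : ℂ → ℂ, g = fun z => (f (a + R * z) - f a) / (R * deriv f a) := ⟨_, rfl⟩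
  have hd : ∀ z ∈ ball (0 : ℂ) 1,
      HasDerivAt g (deriv f (a + R * z) * R / (R * deriv f a)) z := fun z hz => by
    rw [hg]
    have hlin : HasDerivAt (fun z : ℂ => a + R * z) (R : ℂ) z := by
      simpa using ((hasDerivAt_id z).const_mul (R : ℂ)).const_add a
    exact ((((hf.differentiableAt (isOpen_ball.mem_nhds (hmem z hz))).hasDerivAt.comp z
      hlin).sub_const _).div_const _)
  have hginj : InjOn g (ball 0 1) := fun x hx y hy hxy => by
    simp only [hg, div_left_inj' hk, sub_left_inj] at hxy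
    exact mul_left_cancel₀ (ofReal_ne_zero.2 hR.ne')
      (add_left_cancel (hinj (hmem x hx) (hmem y hy) hxy))
  intro w hw
  rw [mem_ball_iff_norm] at hw
  obtain ⟨z, hz, hzw⟩ := koebe_quarter
    (fun z hz => (hd z hz).differentiableAt.differentiableWithinAt) hginj (by simp [hg])
    (by rw [(hd 0 (mem_ball_self one_pos)).deriv]; simp [hd0, hR.ne', mul_comm])
    (show (w - f a) / (R * deriv f a) ∈ ball (0 : ℂ) (1 / 4) by
      rw [mem_ball_zero_iff, norm_div, norm_mul, Complex.norm_real, Real.norm_of_nonneg hR.le,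
        div_lt_iff₀ (mul_pos hR (norm_pos_iff.2 hd0))]
      linarith)
  simp only [hg, div_left_inj' hk, sub_left_inj] at hzw
  exact ⟨_, hmem z hz, hzw⟩

/-- The Koebe function `z / (1 - z)²`. -/
def koebe (z : ℂ) : ℂ := z / (1 - z) ^ 2

theorem one_sub_ne_zero {z : ℂ} (hz : z ∈ ball (0 : ℂ) 1) : 1 - z ≠ 0 := fun e => by
  rw [mem_ball_zero_iff, ← sub_eq_zero.1 e, norm_one] at hz
  exact lt_irrefl 1 hz

theorem hasDerivAt_koebe {z : ℂ} (hz : 1 - z ≠ 0) :
    HasDerivAt koebe ((1 + z) / (1 - z) ^ 3) z := by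
  refine ((hasDerivAt_id z).div (((hasDerivAt_id z).const_sub 1).pow 2)
    (pow_ne_zero 2 hz)).congr_deriv ?_
  simp
  field_simp
  ring

theorem differentiableOn_koebe : DifferentiableOn ℂ koebe (ball 0 1) := fun _ hz =>
  (hasDerivAt_koebe (one_sub_ne_zero hz)).differentiableAt.differentiableWithinAt

theorem injOn_koebe : InjOn koebe (ball 0 1) := fun a ha b hb hab => by
  rw [koebe, koebe, div_eq_div_iff (pow_ne_zero 2 (one_sub_ne_zero ha))
    (pow_ne_zero 2 (one_sub_ne_zero hb))] at hab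
  have h : (a - b) * (1 - a * b) = 0 := by linear_combination hab
  refine sub_eq_zero.1 ((mul_eq_zero.1 h).resolve_right (one_sub_ne_zero ?_))
  rw [mem_ball_zero_iff] at ha hb ⊢
  rw [norm_mul]
  exact mul_lt_one_of_nonneg_of_lt_one_left (norm_nonneg _) ha hb.le

theorem neg_quarter_notMem_koebe : (-(1 / 4) : ℂ) ∉ koebe '' ball 0 1 := by
  rintro ⟨z, hz, e⟩
  rw [koebe, div_eq_iff (pow_ne_zero 2 (one_sub_ne_zero hz))] at e
  have h : (1 + z) ^ 2 = 0 := by linear_combination 4 * e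
  rw [mem_ball_zero_iff, eq_neg_of_add_eq_zero_right (pow_eq_zero_iff two_ne_zero |>.1 h),
    norm_neg, norm_one] at hz
  exact lt_irrefl 1 hz

theorem deriv_deriv_koebe_zero : deriv (deriv koebe) 0 = 4 := by
  have hev : deriv koebe =ᶠ[𝓝 0] fun z => (1 + z) / (1 - z) ^ 3 := by
    filter_upwards [ball_mem_nhds (0 : ℂ) one_pos] with z hz
    exact (hasDerivAt_koebe (one_sub_ne_zero hz)).deriv
  rw [hev.deriv_eq]
  refine (((hasDerivAt_id (0 : ℂ)).const_add 1).div (((hasDerivAt_id (0 : ℂ)).const_sub 1).pow 3)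
    (by norm_num)).deriv.trans ?_
  norm_num

end FA.Univalent

end
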