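import Fermat.Agent.Univalent.Coefficient

/-!
# The distortion and growth theorems

Bieberbach's inequality at the image of `0` under a disc automorphism bounds the radial derivative
of `log ‖f'‖`; integrating gives the distortion theorem, and integrating once more gives the
growth theorem.
-/

set_option autoImplicit false

noncomputable section

namespace FA.Univalent

open Complex Filter Topology Set Metric
open scoped ComplexConjugate

variable {f : ℂ → ℂ}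

/-- The disc automorphism sending `0` to `ζ`. -/
def shift (ζ z : ℂ) : ℂ := (z + ζ) / (1 + conj ζ * z)

theorem shift_denom_ne_zero {ζ z : ℂ} (hζ : ζ ∈ ball (0 : ℂ) 1) (hz : z ∈ ball (0 : ℂ) 1) :
    1 + conj ζ * z ≠ 0 := fun e => by
  rw [mem_ball_zero_iff] at hζ hz
  have h := mul_lt_one_of_nonneg_of_lt_one_left (norm_nonneg _) hζ hz.le
  rw [← RCLike.norm_conj ζ, ← norm_mul, eq_neg_of_add_eq_zero_right e, norm_neg, norm_one] at h
  exact lt_irrefl 1 h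

theorem shift_mem_ball {ζ z : ℂ} (hζ : ζ ∈ ball (0 : ℂ) 1) (hz : z ∈ ball (0 : ℂ) 1) :
    shift ζ z ∈ ball (0 : ℂ) 1 := by
  rw [mem_ball_zero_iff, shift, norm_div,
    div_lt_one (norm_pos_iff.2 (shift_denom_ne_zero hζ hz))]
  rw [mem_ball_zero_iff] at hζ hz
  refine lt_of_pow_lt_pow_left₀ 2 (norm_nonneg _) ?_
  have e : ‖1 + conj ζ * z‖ ^ 2 - ‖z + ζ‖ ^ 2 = (1 - ‖ζ‖ ^ 2) * (1 - ‖z‖ ^ 2) := by
    simp [Complex.sq_norm, normSq_apply]
    ring
  have h1 : 0 < (1 - ‖ζ‖ ^ 2) * (1 - ‖z‖ ^ 2) :=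
    mul_pos (sub_pos.2 (pow_lt_one₀ (norm_nonneg _) hζ two_ne_zero))
      (sub_pos.2 (pow_lt_one₀ (norm_nonneg _) hz two_ne_zero))
  linarith

theorem one_sub_conj_mul_ne_zero {ζ : ℂ} (hζ : ζ ∈ ball (0 : ℂ) 1) : 1 - conj ζ * ζ ≠ 0 := by
  refine one_sub_ne_zero ?_
  rw [mem_ball_zero_iff] at hζ ⊢
  rw [norm_mul, RCLike.norm_conj]
  exact mul_lt_one_of_nonneg_of_lt_one_left (norm_nonneg _) hζ hζ.le

theorem hasDerivAt_shift {ζ z : ℂ} (hζ : ζ ∈ ball (0 : ℂ) 1) (hz : z ∈ ball (0 : ℂ) 1) :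
    HasDerivAt (shift ζ) ((1 - conj ζ * ζ) / (1 + conj ζ * z) ^ 2) z := by
  refine (((hasDerivAt_id z).add_const ζ).div
    (((hasDerivAt_id z).const_mul (conj ζ)).const_add 1) (shift_denom_ne_zero hζ hz)).congr_deriv ?_
  simp
  ring

/-- Bieberbach's inequality transported to the point `ζ`. -/
theorem norm_second_deriv_le (hf : DifferentiableOn ℂ f (ball 0 1)) (hinj : InjOn f (ball 0 1))
    {ζ : ℂ} (hζ : ζ ∈ ball (0 : ℂ) 1) :
    ‖(1 - conj ζ * ζ) * (deriv (deriv f) ζ / deriv f ζ) - 2 * conj ζ‖ ≤ 4 := by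
  have hd0 : deriv f ζ ≠ 0 := deriv_ne_zero isOpen_ball hf hinj hζ
  have hm : (0 : ℂ) ∈ ball (0 : ℂ) 1 := mem_ball_self one_pos
  have hn : ball (0 : ℂ) 1 ∈ 𝓝 (0 : ℂ) := ball_mem_nhds 0 one_pos
  obtain ⟨d, hd⟩ : ∃ d : ℂ, d = 1 - conj ζ * ζ := ⟨_, rfl⟩
  have hdn : d ≠ 0 := hd ▸ one_sub_conj_mul_ne_zero hζ
  have hs0 : shift ζ 0 = ζ := by simp [shift]
  obtain ⟨g, hg⟩ : ∃ g : ℂ → ℂ, g = fun z => (f (shift ζ z) - f ζ) / (d * deriv f ζ) := ⟨_, rfl⟩
  have hgd : ∀ z ∈ ball (0 : ℂ) 1,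
      HasDerivAt g (deriv f (shift ζ z) / (deriv f ζ * (1 + conj ζ * z) ^ 2)) z := fun z hz => by
    rw [hg]
    refine ((((hf.differentiableAt (isOpen_ball.mem_nhds (shift_mem_ball hζ hz))).hasDerivAt.comp z
      (hasDerivAt_shift hζ hz)).sub_const (f ζ)).div_const (d * deriv f ζ)).congr_deriv ?_
    have := shift_denom_ne_zero hζ hz
    rw [← hd]
    field_simp
  have hginj : InjOn g (ball 0 1) := fun a ha b hb hab => by
    simp only [hg, div_left_inj' (mul_ne_zero hdn hd0), sub_left_inj] at hab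
    have h := hinj (shift_mem_ball hζ ha) (shift_mem_ball hζ hb) hab
    rw [shift, shift, div_eq_div_iff (shift_denom_ne_zero hζ ha) (shift_denom_ne_zero hζ hb)] at h
    exact mul_right_cancel₀ hdn (by rw [hd]; linear_combination h)
  have hB := bieberbach_two (fun z hz => (hgd z hz).differentiableAt.differentiableWithinAt) hginj
    (by simp [hg, hs0]) (by rw [(hgd 0 hm).deriv]; simp [hs0, hd0])
  have hev : deriv g =ᶠ[𝓝 0] fun z => deriv f (shift ζ z) /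
      (deriv f ζ * (1 + conj ζ * z) ^ 2) := by
    filter_upwards [hn] with z hz
    exact (hgd z hz).deriv
  have hn' : ball (0 : ℂ) 1 ∈ 𝓝 (shift ζ 0) := by rw [hs0]; exact isOpen_ball.mem_nhds hζ
  have e : deriv (deriv g) 0 = d * (deriv (deriv f) ζ / deriv f ζ) - 2 * conj ζ := by
    rw [hev.deriv_eq]
    refine ((((hf.deriv isOpen_ball).differentiableAt hn').hasDerivAt.comp 0
      (hasDerivAt_shift hζ hm)).div (((((hasDerivAt_id (0 : ℂ)).const_mul (conj ζ)).const_add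
        1).pow 2).const_mul (deriv f ζ)) (by simp [hd0])).deriv.trans ?_
    simp [hs0, ← hd]
    field_simp
  rwa [e, hd] at hB

/-- The mean value theorem in the form used below. -/
theorem le_of_deriv_nonneg {g g' : ℝ → ℝ} {r : ℝ} (hr : 0 ≤ r)
    (hc : ContinuousOn g (Icc 0 r)) (hd : ∀ t ∈ Ioo 0 r, HasDerivAt g (g' t) t)
    (h : ∀ t ∈ Ioo 0 r, 0 ≤ g' t) : g 0 ≤ g r :=
  monotoneOn_of_hasDerivWithinAt_nonneg (convex_Icc 0 r) hc
    (fun t ht => (hd t (interior_Icc (a := (0 : ℝ)) ▸ ht)).hasDerivWithinAt)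
    (fun t ht => h t (interior_Icc (a := (0 : ℝ)) ▸ ht)) (left_mem_Icc.2 hr) (right_mem_Icc.2 hr) hr

/-- **Koebe's distortion theorem.** -/
theorem koebe_distortion (hf : DifferentiableOn ℂ f (ball 0 1)) (hinj : InjOn f (ball 0 1))
    (h1 : deriv f 0 = 1) {z : ℂ} (hz : z ∈ ball (0 : ℂ) 1) :
    (1 - ‖z‖) / (1 + ‖z‖) ^ 3 ≤ ‖deriv f z‖ ∧ ‖deriv f z‖ ≤ (1 + ‖z‖) / (1 - ‖z‖) ^ 3 := by
  rcases eq_or_ne z 0 with rfl | hz0
  · simp [h1]
  have hz1 : ‖z‖ < 1 := mem_ball_zero_iff.1 hz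
  have hzn : 0 < ‖z‖ := norm_pos_iff.2 hz0
  obtain ⟨e, he⟩ : ∃ e : ℂ, e = z / ‖z‖ := ⟨_, rfl⟩
  have hee : conj e * e = 1 := by
    rw [Complex.conj_mul', he, norm_div, Complex.norm_real, norm_norm, div_self hzn.ne']
    simp
  have hen : ‖e‖ = 1 := by
    rw [he, norm_div, Complex.norm_real, norm_norm, div_self hzn.ne']
  obtain ⟨M, hM0, hM, hMe⟩ := exists_log one_pos (hf.deriv isOpen_ball)
    (fun w hw => deriv_ne_zero isOpen_ball hf hinj hw) h1
  have hray : ∀ t ∈ Icc (0 : ℝ) ‖z‖, (t : ℂ) * e ∈ ball (0 : ℂ) 1 := fun t ht => by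
    rw [mem_ball_zero_iff, norm_mul, hen, mul_one, Complex.norm_real, Real.norm_of_nonneg ht.1]
    exact ht.2.trans_lt hz1
  obtain ⟨q, hq⟩ : ∃ q : ℂ → ℂ, q = fun w => deriv (deriv f) w / deriv f w := ⟨_, rfl⟩
  obtain ⟨G, hG⟩ : ∃ G : ℝ → ℝ, G = fun t : ℝ => (M ((t : ℂ) * e)).re := ⟨_, rfl⟩
  have hGd : ∀ t ∈ Icc (0 : ℝ) ‖z‖, HasDerivAt G (q ((t : ℂ) * e) * e).re t := fun t ht => by
    have hl : HasDerivAt (fun s : ℂ => s * e) e (t : ℂ) := by
      simpa using (hasDerivAt_id (t : ℂ)).mul_const e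
    have := ((hM _ (hray t ht)).comp (t : ℂ) hl).comp_ofReal
    rw [hG, hq]
    exact Complex.reCLM.hasFDerivAt.comp_hasDerivAt t this
  have hb : ∀ t ∈ Icc (0 : ℝ) ‖z‖, |(1 - t ^ 2) * (q ((t : ℂ) * e) * e).re - 2 * t| ≤ 4 :=
    fun t ht => by
      have h := norm_second_deriv_le hf hinj (hray t ht)
      rw [← mul_one ‖_ - _‖, ← hen, ← norm_mul] at h
      refine le_trans (le_of_eq_of_le ?_ (Complex.abs_re_le_norm _)) h
      rw [map_mul, Complex.conj_ofReal, hq]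
      congr 1
      have e1 : (1 - (t : ℂ) * conj e * ((t : ℂ) * e)) = ((1 - t ^ 2 : ℝ) : ℂ) := by
        push_cast
        linear_combination -(t : ℂ) ^ 2 * hee
      rw [e1, show ∀ a b : ℂ, (a * b - 2 * ((t : ℂ) * conj e)) * e =
        a * (b * e) - ((2 * t : ℝ) : ℂ) * (conj e * e) from fun a b => by push_cast; ring, hee,
        mul_one, sub_re, re_ofReal_mul, ofReal_re]
  have hcont : ContinuousOn G (Icc 0 ‖z‖) :=
    fun t ht => (hGd t ht).continuousAt.continuousWithinAt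
  have hG0 : G 0 = 0 := by simp [hG, hM0]
  have hend : (‖z‖ : ℂ) * e = z := by
    rw [he, mul_div_cancel₀ _ (ofReal_ne_zero.2 hzn.ne')]
  have hGz : ‖deriv f z‖ = Real.exp (G ‖z‖) := by
    rw [hG, ← hMe z hz, Complex.norm_exp]
    simp only [hend]
  have hp : ∀ t ∈ Icc (0 : ℝ) ‖z‖, 0 < 1 + t ∧ 0 < 1 - t := fun t ht =>
    ⟨by linarith [ht.1], by linarith [ht.2]⟩
  have hU : ∀ t ∈ Icc (0 : ℝ) ‖z‖, HasDerivAt (fun s => Real.log (1 + s) - 3 * Real.log (1 - s))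
      ((2 * t + 4) / (1 - t ^ 2)) t := fun t ht => by
    obtain ⟨p1, p2⟩ := hp t ht
    refine ((((hasDerivAt_id t).const_add 1).log p1.ne').sub
      ((((hasDerivAt_id t).const_sub 1).log p2.ne').const_mul 3)).congr_deriv ?_
    rw [show 1 - t ^ 2 = (1 + t) * (1 - t) by ring]
    simp only [id]
    field_simp
    ring
  have hL : ∀ t ∈ Icc (0 : ℝ) ‖z‖, HasDerivAt (fun s => Real.log (1 - s) - 3 * Real.log (1 + s))
      ((2 * t - 4) / (1 - t ^ 2)) t := fun t ht => by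
    obtain ⟨p1, p2⟩ := hp t ht
    refine ((((hasDerivAt_id t).const_sub 1).log p2.ne').sub
      ((((hasDerivAt_id t).const_add 1).log p1.ne').const_mul 3)).congr_deriv ?_
    rw [show 1 - t ^ 2 = (1 + t) * (1 - t) by ring]
    simp only [id]
    field_simp
    ring
  have hsq : ∀ t ∈ Ioo (0 : ℝ) ‖z‖, 0 < 1 - t ^ 2 := fun t ht => by
    nlinarith [ht.1, ht.2]
  have hup := le_of_deriv_nonneg hzn.le
    (ContinuousOn.sub (fun t ht => (hU t ht).continuousAt.continuousWithinAt) hcont)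
    (fun t ht => (hU t (Ioo_subset_Icc_self ht)).sub (hGd t (Ioo_subset_Icc_self ht)))
    (fun t ht => by
      rw [sub_nonneg, le_div_iff₀ (hsq t ht)]
      linarith [(abs_le.1 (hb t (Ioo_subset_Icc_self ht))).2])
  have hlo := le_of_deriv_nonneg hzn.le
    (ContinuousOn.sub hcont (fun t ht => (hL t ht).continuousAt.continuousWithinAt))
    (fun t ht => (hGd t (Ioo_subset_Icc_self ht)).sub (hL t (Ioo_subset_Icc_self ht)))
    (fun t ht => by
      rw [sub_nonneg, div_le_iff₀ (hsq t ht)]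
      linarith [(abs_le.1 (hb t (Ioo_subset_Icc_self ht))).1])
  simp [hG0] at hup hlo
  obtain ⟨p1, p2⟩ := hp ‖z‖ (right_mem_Icc.2 hzn.le)
  rw [hGz]
  constructor
  · rw [← Real.exp_log (div_pos p2 (pow_pos p1 3)), Real.exp_le_exp,
      Real.log_div p2.ne' (pow_ne_zero 3 p1.ne'), Real.log_pow]
    push_cast
    linarith
  · rw [← Real.exp_log (div_pos p1 (pow_pos p2 3)), Real.exp_le_exp,
      Real.log_div p1.ne' (pow_ne_zero 3 p2.ne'), Real.log_pow]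
    push_cast
    linarith

/-- The upper growth bound. -/
theorem growth_upper (hf : DifferentiableOn ℂ f (ball 0 1)) (hinj : InjOn f (ball 0 1))
    (h0 : f 0 = 0) (h1 : deriv f 0 = 1) {z : ℂ} (hz : z ∈ ball (0 : ℂ) 1) :
    ‖f z‖ ≤ ‖z‖ / (1 - ‖z‖) ^ 2 := by
  have hz1 : ‖z‖ < 1 := mem_ball_zero_iff.1 hz
  have hray : ∀ t ∈ Icc (0 : ℝ) 1, (t : ℂ) * z ∈ ball (0 : ℂ) 1 ∧
      0 < 1 - t * ‖z‖ ∧ ‖(t : ℂ) * z‖ = t * ‖z‖ := fun t ht => by
    have e : ‖(t : ℂ) * z‖ = t * ‖z‖ := by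
      rw [norm_mul, Complex.norm_real, Real.norm_of_nonneg ht.1]
    have h : t * ‖z‖ < 1 := (mul_le_of_le_one_left (norm_nonneg z) ht.2).trans_lt hz1
    exact ⟨mem_ball_zero_iff.2 (e ▸ h), sub_pos.2 h, e⟩
  have hd : ∀ t ∈ Icc (0 : ℝ) 1,
      HasDerivAt (fun s : ℝ => f ((s : ℂ) * z)) (deriv f ((t : ℂ) * z) * z) t := fun t ht => by
    have hl : HasDerivAt (fun s : ℂ => s * z) z (t : ℂ) := by
      simpa using (hasDerivAt_id (t : ℂ)).mul_const z
    exact ((hf.differentiableAt (isOpen_ball.mem_nhds (hray t ht).1)).hasDerivAt.comp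
      (t : ℂ) hl).comp_ofReal
  have hB : ∀ t ∈ Icc (0 : ℝ) 1, HasDerivAt (fun s : ℝ => s * ‖z‖ / (1 - s * ‖z‖) ^ 2)
      ((1 + t * ‖z‖) / (1 - t * ‖z‖) ^ 3 * ‖z‖) t := fun t ht => by
    have hp := (hray t ht).2.1
    refine (((hasDerivAt_id t).mul_const ‖z‖).div
      ((((hasDerivAt_id t).mul_const ‖z‖).const_sub 1).pow 2)
        (pow_ne_zero 2 hp.ne')).congr_deriv ?_
    simp
    field_simp
    ring
  have := image_norm_le_of_norm_deriv_right_le_deriv_boundary'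
    (f := fun s : ℝ => f ((s : ℂ) * z)) (a := 0) (b := 1)
    (fun t ht => (hd t ht).continuousAt.continuousWithinAt)
    (fun t ht => (hd t (Ico_subset_Icc_self ht)).hasDerivWithinAt)
    (B := fun s : ℝ => s * ‖z‖ / (1 - s * ‖z‖) ^ 2)
    (by simp [h0]) (fun t ht => (hB t ht).continuousAt.continuousWithinAt)
    (fun t ht => (hB t (Ico_subset_Icc_self ht)).hasDerivWithinAt)
    (fun t ht => by
      have hr := hray t (Ico_subset_Icc_self ht)
      rw [norm_mul]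
      refine mul_le_mul_of_nonneg_right ?_ (norm_nonneg z)
      rw [← hr.2.2]
      exact (koebe_distortion hf hinj h1 hr.1).2)
    (right_mem_Icc.2 zero_le_one)
  simpa using this

/-- The lower growth bound: pull the segment from `0` to `f z` back to the disc. -/
theorem growth_lower (hf : DifferentiableOn ℂ f (ball 0 1)) (hinj : InjOn f (ball 0 1))
    (h0 : f 0 = 0) (h1 : deriv f 0 = 1) {z : ℂ} (hz : z ∈ ball (0 : ℂ) 1) :
    ‖z‖ / (1 + ‖z‖) ^ 2 ≤ ‖f z‖ := by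
  have hψ : ‖z‖ / (1 + ‖z‖) ^ 2 ≤ 1 / 4 := by
    rw [div_le_div_iff₀ (by positivity) (by norm_num)]
    nlinarith [sq_nonneg (1 - ‖z‖)]
  rcases le_or_gt (1 / 4) ‖f z‖ with hbig | hsmall
  · exact hψ.trans hbig
  rcases eq_or_ne z 0 with rfl | hz0
  · simp [h0]
  obtain ⟨w, hw⟩ : ∃ w, w = f z := ⟨_, rfl⟩
  rw [← hw] at hsmall ⊢
  have hw0 : w ≠ 0 := fun e => hz0 (hinj hz (mem_ball_self one_pos) (by rw [h0, ← hw, e]))
  obtain ⟨G, hG⟩ : ∃ G : ℂ → ℂ, G = Function.invFunOn f (ball 0 1) := ⟨_, rfl⟩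
  have hGl : ∀ y ∈ ball (0 : ℂ) 1, G (f y) = y := fun y hy => by
    rw [hG]
    exact hinj.leftInvOn_invFunOn hy
  obtain ⟨γ, hγ⟩ : ∃ γ : ℝ → ℂ, γ = fun t : ℝ => G ((t : ℂ) * w) := ⟨_, rfl⟩
  have hseg : ∀ t ∈ Icc (0 : ℝ) 1, γ t ∈ ball (0 : ℂ) 1 ∧ f (γ t) = (t : ℂ) * w := fun t ht => by
    obtain ⟨y, hy, hyw⟩ := koebe_quarter hf hinj h0 h1 (show (t : ℂ) * w ∈ ball (0 : ℂ) (1 / 4) by
      rw [mem_ball_zero_iff, norm_mul, Complex.norm_real, Real.norm_of_nonneg ht.1]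
      exact (mul_le_of_le_one_left (norm_nonneg w) ht.2).trans_lt hsmall)
    simp only [hγ]
    rw [← hyw, hGl y hy]
    exact ⟨hy, rfl⟩
  have hγd : ∀ t ∈ Icc (0 : ℝ) 1, HasDerivAt γ ((deriv f (γ t))⁻¹ * w) t := fun t ht => by
    obtain ⟨hy, hyw⟩ := hseg t ht
    have hA := (hf.analyticAt (isOpen_ball.mem_nhds hy)).hasStrictDerivAt
    have hGd := (hA.to_local_left_inverse (deriv_ne_zero isOpen_ball hf hinj hy)
      (g := G) (eventually_of_mem (isOpen_ball.mem_nhds hy) hGl)).hasDerivAt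
    rw [hyw] at hGd
    have hl : HasDerivAt (fun s : ℂ => s * w) w (t : ℂ) := by
      simpa using (hasDerivAt_id (t : ℂ)).mul_const w
    have := (hGd.comp (t : ℂ) hl).comp_ofReal
    rw [hγ]
    simpa only [hγ, Function.comp_def] using this
  have hγ0 : ∀ t ∈ Ioc (0 : ℝ) 1, γ t ≠ 0 := fun t ht e => by
    have := (hseg t (Ioc_subset_Icc_self ht)).2
    rw [e, h0, eq_comm, mul_eq_zero] at this
    exact this.elim (ofReal_ne_zero.2 ht.1.ne') hw0
  have hc : ContinuousOn (fun t => t * ‖w‖ - ‖γ t‖ / (1 + ‖γ t‖) ^ 2) (Icc 0 1) := by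
    have hγc : ContinuousOn γ (Icc 0 1) :=
      fun t ht => (hγd t ht).continuousAt.continuousWithinAt
    exact (continuousOn_id.mul continuousOn_const).sub
      (hγc.norm.div ((hγc.norm.const_add 1).pow 2) fun t _ => by positivity)
  have key := le_of_deriv_nonneg (g' := fun t => ‖w‖ -
      (1 - ‖γ t‖) / (1 + ‖γ t‖) ^ 3 * (inner ℝ (γ t) ((deriv f (γ t))⁻¹ * w) / ‖γ t‖))
    zero_le_one hc (fun t ht => ?_) (fun t ht => ?_)
  · have h0' : γ 0 = 0 := by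
      rw [hγ]
      simp only [ofReal_zero, zero_mul]
      rw [← h0, hGl 0 (mem_ball_self one_pos), h0]
    have h1' : γ 1 = z := by
      rw [hγ]
      simp only [ofReal_one, one_mul]
      rw [hw, hGl z hz]
    simpa [h0', h1'] using key
  · have hne : γ t ≠ 0 := hγ0 t ⟨ht.1, ht.2.le⟩
    have hn : HasDerivAt (fun s => ‖γ s‖)
        (inner ℝ (γ t) ((deriv f (γ t))⁻¹ * w) / ‖γ t‖) t := by
      have := (hγd t (Ioo_subset_Icc_self ht)).norm_sq.sqrt (pow_ne_zero 2 (norm_ne_zero_iff.2 hne))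
      simp only [Real.sqrt_sq (norm_nonneg _)] at this
      exact this.congr_deriv (by field_simp)
    refine (((hasDerivAt_id t).mul_const ‖w‖).sub
      (hn.div ((hn.const_add 1).pow 2)
        (pow_ne_zero 2 (add_pos_of_pos_of_nonneg one_pos (norm_nonneg _)).ne'))).congr_deriv ?_
    simp
    field_simp
    ring
  · obtain ⟨hy, -⟩ := hseg t (Ioo_subset_Icc_self ht)
    have hne : γ t ≠ 0 := hγ0 t ⟨ht.1, ht.2.le⟩
    have hd0 : 0 < ‖deriv f (γ t)‖ := norm_pos_iff.2 (deriv_ne_zero isOpen_ball hf hinj hy)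
    have h2 : inner ℝ (γ t) ((deriv f (γ t))⁻¹ * w) / ‖γ t‖ ≤ ‖w‖ / ‖deriv f (γ t)‖ := by
      rw [div_le_iff₀ (norm_pos_iff.2 hne)]
      refine (real_inner_le_norm _ _).trans (le_of_eq ?_)
      rw [norm_mul, norm_inv]
      field_simp
    have h3 := mul_le_mul_of_nonneg_left h2
      (show 0 ≤ (1 - ‖γ t‖) / (1 + ‖γ t‖) ^ 3 from
        div_nonneg (sub_nonneg.2 (mem_ball_zero_iff.1 hy).le) (by positivity))
    have h4 := mul_le_mul_of_nonneg_right (koebe_distortion hf hinj h1 hy).1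
      (show 0 ≤ ‖w‖ / ‖deriv f (γ t)‖ by positivity)
    rw [mul_div_cancel₀ _ hd0.ne'] at h4
    linarith

end FA.Univalent

end
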